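import Fermat.Agent.DeligneSerre.Interface
import Mathlib.NumberTheory.MulChar.Lemmas
import Mathlib.RingTheory.IntegralDomain

/-!
# A weight two form congruent to a weight one form

`g * 2ℓ E₁(ψ)`, where `ψ` is the inverse Teichmüller character modulo `ℓ`, is congruent to the
weight one eigenform `g`: the constant term of `2ℓ E₁(ψ)` reduces to one and the others to zero.
-/

set_option autoImplicit false

noncomputable section

open CongruenceSubgroup ModularFormClass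
open UpperHalfPlane hiding I
open Fermat.Agent.IntegralStructure (qFun qHom qHom_apply mem_qFun_of_modularFormClass)
open scoped MatrixGroups ModularForm Manifold

namespace Fermat.Agent.DeligneSerre

/-- The inverse of the Teichmüller character with respect to `φ`. -/
theorem exists_inverse_teichmuller {ℓ : ℕ} [Fact ℓ.Prime] {k : Type*} [Field k] [CharP k ℓ]
    (φ : ZBar →+* k) :
    ∃ ψ : DirichletCharacter ℂ ℓ, ∀ u : (ZMod ℓ)ˣ, ∃ z : ZBar, (z : ℂ) = ψ (u : ZMod ℓ) ∧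
      φ z * ZMod.castHom (dvd_refl ℓ) k (u : ZMod ℓ) = 1 := by
  classical
  obtain ⟨g, hg⟩ := IsCyclic.exists_generator (α := (ZMod ℓ)ˣ)
  have hpos : Fintype.card (ZMod ℓ)ˣ ≠ 0 := Fintype.card_ne_zero
  obtain ⟨z, hz, hφz⟩ := exists_root_lift φ hpos
    (a := ZMod.castHom (dvd_refl ℓ) k ((g⁻¹ : (ZMod ℓ)ˣ) : ZMod ℓ))
    (by rw [← map_pow, ← Units.val_pow_eq_pow_val, pow_card_eq_one, Units.val_one, map_one])
  have hz' : (z : ℂ) ^ Fintype.card (ZMod ℓ)ˣ = 1 := by
    have := congrArg (fun w : ZBar => (w : ℂ)) hz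
    simpa using this
  let ζ : ℂˣ := Units.ofPowEqOne (z : ℂ) _ hz' hpos
  have hζ : ζ ∈ rootsOfUnity (Fintype.card (ZMod ℓ)ˣ) ℂ := by
    rw [mem_rootsOfUnity']
    exact hz'
  refine ⟨MulChar.ofRootOfUnity hζ hg, fun u => ?_⟩
  obtain ⟨i, rfl⟩ := (mem_powers_iff_mem_zpowers.2 (hg u))
  refine ⟨z ^ i, ?_, ?_⟩
  · rw [Units.val_pow_eq_pow_val, map_pow, MulChar.ofRootOfUnity_spec]
    rfl
  · rw [map_pow, hφz, Units.val_pow_eq_pow_val, map_pow, ← mul_pow, ← map_mul, ← Units.val_mul,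
      inv_mul_cancel, Units.val_one, map_one, one_pow]

/-- An odd character modulo `ℓ` such that the expansion of `2ℓ E₁(ψ)` is integral and reduces
to one, and `φ (ψ p) p = 1`. -/
theorem exists_congruent_one {ℓ : ℕ} [Fact ℓ.Prime] (hℓ2 : ℓ ≠ 2) {k : Type*} [Field k]
    [CharP k ℓ] (φ : ZBar →+* k) :
    ∃ (ψ : DirichletCharacter ℂ ℓ) (b : ℕ → ZBar), ψ.Odd ∧
      (∀ j, (b j : ℂ) = ((2 * ℓ : ℕ) : ℂ) * eisCoeff ψ j) ∧
      (∀ j, φ (b j) = if j = 0 then 1 else 0) ∧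
      ∀ p : ℕ, (p : ZMod ℓ) ≠ 0 → ∃ z : ZBar, (z : ℂ) = ψ (p : ZMod ℓ) ∧ φ z * (p : k) = 1 := by
  classical
  obtain ⟨ψ, hψ⟩ := exists_inverse_teichmuller φ
  let ι := ZMod.castHom (dvd_refl ℓ) k
  let Z : ZMod ℓ → ZBar := fun t => ⟨ψ t, isIntegral_character ψ t⟩
  have hZ : ∀ t : ZMod ℓ, φ (Z t) * ι t = if t = 0 then 0 else 1 := by
    intro t
    split_ifs with ht
    · rw [ht, map_zero, mul_zero]
    · obtain ⟨z, hz, hz'⟩ := hψ (Units.mk0 t ht)
      rw [show Z t = z from Subtype.ext hz.symm]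
      exact hz'
  have hodd : ψ.Odd := by
    have hZ1 : φ (Z (-1)) = -1 := by
      have := hZ (-1)
      rw [if_neg (neg_ne_zero.2 one_ne_zero), map_neg, map_one, mul_neg, mul_one] at this
      exact neg_eq_iff_eq_neg.1 this
    have hsq : ψ (-1) * ψ (-1) = 1 := by rw [← map_mul, neg_one_mul, neg_neg, map_one]
    refine (mul_self_eq_one_iff.1 hsq).resolve_left fun h1 => ?_
    rw [show Z (-1) = 1 from Subtype.ext h1, map_one] at hZ1
    exact Ring.neg_one_ne_one_of_char_ne_two (R := k) (by rwa [ringChar.eq k ℓ]) hZ1.symm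
  let S : ZBar := ∑ t : ZMod ℓ, (t.val : ZBar) * Z t
  have hS : φ S = -1 := by
    have e : ∀ t : ZMod ℓ, φ ((t.val : ZBar) * Z t) = 1 - if t = 0 then 1 else 0 := fun t => by
      rw [map_mul, map_natCast, ← map_natCast ι, ZMod.natCast_zmod_val, mul_comm, hZ]
      split_ifs <;> simp
    simp only [S, map_sum, e, Finset.sum_sub_distrib, Finset.sum_const, Finset.card_univ,
      ZMod.card, nsmul_eq_mul, mul_one, Finset.sum_ite_eq', Finset.mem_univ, if_true,
      CharP.cast_eq_zero, zero_sub]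
  refine ⟨ψ, fun j => if j = 0 then -S else ((2 * ℓ : ℕ) : ZBar) * ∑ m ∈ j.divisors, Z (m : ZMod ℓ),
    hodd, fun j => ?_, fun j => ?_, fun p hp => ⟨Z p, rfl, ?_⟩⟩ <;> beta_reduce
  · rcases eq_or_ne j 0 with rfl | hj
    · rw [show ((2 * ℓ : ℕ) : ℂ) * eisCoeff ψ 0 = 2 * (ℓ : ℂ) * eisCoeff ψ 0 by push_cast; ring,
        eisCoeff_zero_mul, if_pos rfl]
      show algebraMap ZBar ℂ (-S) = _
      simp only [S, map_neg, map_sum, map_mul, map_natCast]
      rfl
    · rw [if_neg hj, eisCoeff, if_neg hj]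
      show algebraMap ZBar ℂ (((2 * ℓ : ℕ) : ZBar) * ∑ m ∈ j.divisors, Z (m : ZMod ℓ)) = _
      simp only [map_mul, map_natCast, map_sum]
      rfl
  · by_cases hj : j = 0
    · simp only [if_pos hj, map_neg, hS, neg_neg]
    · simp only [if_neg hj, map_mul, map_natCast, Nat.cast_mul, CharP.cast_eq_zero, mul_zero,
        zero_mul]
  · have h1 := hZ (p : ZMod ℓ)
    rwa [if_neg hp, map_natCast] at h1

/-- Raising the level of a nebentypus. -/
theorem HasNeb.changeLevel {M N : ℕ} [NeZero M] [NeZero N] (h : M ∣ N) {k : ℤ}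
    {χ : DirichletCharacter ℂ M} {f : ℍ → ℂ} (hf : HasNeb k χ f) :
    HasNeb k (DirichletCharacter.changeLevel h χ) f := by
  intro γ hγ
  have hγM : γ ∈ Gamma0 M := by
    have h0 := congrArg (ZMod.castHom h (ZMod M)) (Gamma0_mem.1 hγ)
    rw [map_intCast, map_zero] at h0
    exact Gamma0_mem.2 h0
  obtain ⟨u, hu⟩ := isUnit_lowerRight hγ
  rw [hf γ hγM, ← hu, DirichletCharacter.changeLevel_eq_cast_of_dvd _ h, hu, ZMod.cast_intCast h]

/-- A reduction of the algebraic integers to an algebraically closed field of characteristic `ℓ`. -/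
theorem exists_residue_algClosed {ℓ : ℕ} (hℓ : ℓ.Prime) :
    ∃ (k : Type) (_ : Field k) (_ : IsAlgClosed k) (φ : ZBar →+* k), φ (ℓ : ZBar) = 0 := by
  obtain ⟨I, hI, hℓI⟩ := exists_maximal_above hℓ
  let _ : Field (ZBar ⧸ I) := Ideal.Quotient.field I
  refine ⟨AlgebraicClosure (ZBar ⧸ I), inferInstance, inferInstance,
    (algebraMap (ZBar ⧸ I) _).comp (Ideal.Quotient.mk I), ?_⟩
  rw [RingHom.comp_apply, Ideal.Quotient.eq_zero_iff_mem.2 hℓI, map_zero]

/-- The congruent weight two forms exist. -/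
theorem congruentFormProperty {N : ℕ} [NeZero N] {ε : DirichletCharacter ℂ N}
    {g : CuspForm (Gamma1 N) 1} (hg : IsDepleted ε (qCoeff g)) : CongruentFormProperty ε g := by
  classical
  refine ⟨{2}, fun ℓ hℓ hℓS _ => ?_⟩
  have : NeZero (N * ℓ) := ⟨Nat.mul_ne_zero (NeZero.ne N) hℓ.ne_zero⟩
  have : Fact ℓ.Prime := ⟨hℓ⟩
  rw [Finset.mem_singleton] at hℓS
  obtain ⟨k, instk, instc, φ, h0⟩ := exists_residue_algClosed hℓ
  have : CharP k ℓ := (CharP.charP_iff_prime_eq_zero hℓ).2 (by rw [← map_natCast φ]; exact h0)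
  obtain ⟨ψ, b, hodd, hb, hφb, hψp⟩ := exists_congruent_one hℓS φ
  let G : ℕ → ZBar := fun i => ⟨qCoeff g i, isIntegral_coeff hg i⟩
  -- the form
  let δ : DirichletCharacter ℂ (N * ℓ) :=
    DirichletCharacter.changeLevel (dvd_mul_right N ℓ) ε *
      DirichletCharacter.changeLevel (dvd_mul_left ℓ N) ψ
  let E : ℍ → ℂ := ((2 * ℓ : ℕ) : ℂ) • eisOne ψ
  have hE : HasNeb 1 ψ E := fun γ hγ => by
    rw [ModularForm.SL_smul_slash, eisOne_slash_gamma0 hodd hγ, smul_comm]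
  have hneb : HasNeb 2 δ (⇑g * E) := by
    have h := (hg.hecke.nebentypus.changeLevel (dvd_mul_right N ℓ)).mul
      (hE.changeLevel (dvd_mul_left ℓ N))
    rwa [show (1 : ℤ) + 1 = 2 from rfl] at h
  let f : CuspForm (Gamma1 (N * ℓ)) 2 := mkCuspForm (Gamma1 (N * ℓ)) 2 (⇑g * E)
    (fun γ hγ => hneb.slash_gamma1 hγ)
    ((CuspFormClass.holo g).mul ((mdifferentiable_eisOne hodd).const_smul _))
    (fun γ => by
      rw [show (2 : ℤ) = 1 + 1 from rfl, ModularForm.mul_slash_SL2, ModularForm.SL_smul_slash]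
      exact (CuspFormClass.zero_at_infty_slash g γ).mul_boundedAtFilter
        (Filter.BoundedAtFilter.smul _ (isBoundedAtImInfty_slash_eisOne hodd γ)))
  let qg : qFun := ⟨⇑g, mem_qFun_of_modularFormClass (by simp) g⟩
  let qe : qFun := ⟨eisOne ψ, eisOne_mem_qFun hodd⟩
  let a : ℕ → ZBar := fun n => ∑ x ∈ Finset.HasAntidiagonal.antidiagonal n, G x.1 * b x.2
  have ha : ∀ n, (a n : ℂ) = qCoeff f n := by
    intro n
    have hf : qExpansion 1 ⇑f = qHom (qg * (((2 * ℓ : ℕ) : ℂ) • qe)) := rfl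
    rw [qCoeff, hf, map_mul, map_smul, PowerSeries.coeff_mul, AddSubmonoidClass.coe_finsetSum]
    refine Finset.sum_congr rfl fun x _ => ?_
    rw [MulMemClass.coe_mul, hb, map_smul, smul_eq_mul, qHom_apply, qHom_apply,
      show (qExpansion 1 (qe : ℍ → ℂ)).coeff x.2 = eisCoeff ψ x.2 from qExpansion_eisOne hodd _]
    rfl
  have hφa : ∀ n, φ (a n) = φ (G n) := by
    intro n
    simp only [a, map_sum, map_mul, hφb, mul_ite, mul_one, mul_zero]
    rw [Finset.sum_eq_single (n, 0)]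
    · rw [if_pos rfl]
    · rintro ⟨i, j⟩ hx hne
      rw [if_neg]
      rintro rfl
      rw [Finset.HasAntidiagonal.mem_antidiagonal, add_zero] at hx
      exact hne (by rw [show i = n from hx])
    · intro hn
      exact absurd (Finset.HasAntidiagonal.mem_antidiagonal.2 (add_zero n)) hn
  refine ⟨k, instk, φ, δ, f, a, instc, h0, hneb, ha, ?_, fun n x hx => ?_, ?_⟩
  · rw [hφa, show G 1 = 1 from Subtype.ext hg.one, map_one]
  · rw [hφa, show G n = x from Subtype.ext hx.symm]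
  intro p hp hpN x y hx hy
  have hu : IsUnit ((p : ℕ) : ZMod (N * ℓ)) :=
    (ZMod.unitOfCoprime p ((Nat.Prime.coprime_iff_not_dvd hp).2 hpN)).isUnit
  have hpℓ : ((p : ℕ) : ZMod ℓ) ≠ 0 := fun h => hpN <| by
    rw [(Nat.prime_dvd_prime_iff_eq hℓ hp).1 ((ZMod.natCast_eq_zero_iff _ _).1 h)]
    exact dvd_mul_left p N
  obtain ⟨z, hz, h1⟩ := hψp p hpℓ
  have hyx : y = x * z := by
    refine Subtype.ext ?_
    obtain ⟨u, hu'⟩ := hu
    rw [hy, MulMemClass.coe_mul, hx, hz, MulChar.mul_apply, ← hu',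
      DirichletCharacter.changeLevel_eq_cast_of_dvd, DirichletCharacter.changeLevel_eq_cast_of_dvd,
      hu', ZMod.cast_natCast (dvd_mul_right N ℓ), ZMod.cast_natCast (dvd_mul_left ℓ N)]
  rw [hyx, map_mul, mul_left_comm, mul_comm (p : k), h1, mul_one]

end Fermat.Agent.DeligneSerre
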