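import Fermat.Agent.DeligneSerre.Wiring
import Fermat.Agent.DeligneSerre.CongruentForm
import Fermat.Agent.DeligneSerre.Geom.GaloisModel
import Fermat.Agent.DeligneSerre.Geom.Operators

/-!
# The Deligne–Serre theorem from the reduction of the curves of `±Γ₁(M)`
-/

set_option autoImplicit false

noncomputable section

namespace Fermat.Agent.DeligneSerre

open CongruenceSubgroup ModularFormClass
open Fermat.Agent.Arith
open scoped MatrixGroups

/-- The theorem given the reduction property. -/
theorem exists_galoisRep_of_reduction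
    (hred : ∀ (M : ℕ) [NeZero M] [Curve.GoodLevel M], Curve.ReductionProperty M)
    {N : ℕ} [NeZero N] {ε : DirichletCharacter ℂ N} {f : CuspForm (Gamma1 N) 1}
    (hT : HeckeRec ε (qCoeff f)) (hf : qCoeff f 1 = 1) :
    ∃ ρ : GQ →* GL (Fin 2) ℂ, GaloisFactorsThroughFiniteLevel ρ ∧
      (Deformation.matrixRepresentation ρ).IsIrreducible ∧
      ∀ p : ℕ, p.Prime → ¬ p ∣ N →
        ∀ A : ValuationSubring QBar, A.LiesOverPrime p →
          (∀ σ ∈ A.inertiaSubgroupIn ℚ, ρ σ = 1) ∧
          ∀ σ : GQ, A.IsFrobeniusAt σ p →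
            ((ρ σ : GL (Fin 2) ℂ) : Matrix (Fin 2) (Fin 2) ℂ).trace = qCoeff f p ∧
            ((ρ σ : GL (Fin 2) ℂ) : Matrix (Fin 2) (Fin 2) ℂ).det = ε (p : ZMod N) :=
  exists_galoisRep_of_inputs (fun _ _ _ _ hg => congruentFormProperty hg) Curve.galoisModelStep
    hred (fun M _ _ => Curve.operatorsProperty M) hT hf

end Fermat.Agent.DeligneSerre
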