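import Fermat.Agent.DeligneSerre.Criterion
import Fermat.Agent.DeligneSerre.Nebentypus
import Fermat.Agent.DeligneSerre.Conjugate
import Fermat.Agent.DeligneSerre.PeriodsOps
import Fermat.Agent.DeligneSerre.Curve.Kummer
import Fermat.Agent.RedTorsion.Series

/-!
# The statements to be proved about the curve of `±Γ₁(M)` and about residual representations

Only definitions: the steps leading to `HasResidualReps`.
-/

set_option autoImplicit false

noncomputable section

open CongruenceSubgroup ModularFormClass ModularCurve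
open Fermat.Agent.Arith
open scoped MatrixGroups

namespace Fermat.Agent.DeligneSerre

open Fermat.Agent.RT.GammaH

local notation "Qb" => AlgebraicClosure ℚ

/-! ### The congruent form -/

/-- For almost all primes `ℓ` a weight one eigenform is congruent to a weight two form of level
`N * ℓ` with a nebentypus `δ` such that `p δ(p) ≡ ε(p)`. -/
def CongruentFormProperty {N : ℕ} [NeZero N] (ε : DirichletCharacter ℂ N)
    (g : CuspForm (Gamma1 N) 1) : Prop :=
  ∃ S : Finset ℕ, ∀ ℓ : ℕ, ∀ hℓ : ℓ.Prime, ℓ ∉ S → ¬ ℓ ∣ N →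
    haveI : NeZero (N * ℓ) := ⟨Nat.mul_ne_zero (NeZero.ne N) hℓ.ne_zero⟩
    ∃ (k : Type) (_ : Field k) (φ : ZBar →+* k) (δ : DirichletCharacter ℂ (N * ℓ))
      (f : CuspForm (Gamma1 (N * ℓ)) 2) (a : ℕ → ZBar),
      IsAlgClosed k ∧ φ ℓ = 0 ∧ HasNeb 2 δ ⇑f ∧ (∀ n, (a n : ℂ) = qCoeff f n) ∧
      φ (a 1) = 1 ∧ (∀ n (x : ZBar), (x : ℂ) = qCoeff g n → φ (a n) = φ x) ∧
      ∀ p : ℕ, p.Prime → ¬ p ∣ N * ℓ → ∀ x y : ZBar, (x : ℂ) = ε (p : ZMod N) →
        (y : ℂ) = δ (p : ZMod (N * ℓ)) → φ x = p * φ y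

/-! ### The Galois module of the Jacobian of `±Γ₁(M)` in coordinates -/

/-- The image of a unit modulo `M` of a prime not dividing it. -/
def primeUnit (M p : ℕ) (hp : p.Prime) (hpM : ¬ p ∣ M) : (ZMod M)ˣ :=
  ZMod.unitOfCoprime p ((Nat.Prime.coprime_iff_not_dvd hp).2 hpM)

/-- A Galois action on parabolic homomorphisms modulo `ℓ` commuting with the good operators,
unramified outside `M ℓ`, with the Eichler–Shimura relation. -/
def GaloisModelProperty (M ℓ : ℕ) [NeZero M] : Prop :=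
  ∃ ρ : GQ →* Matrix (Fin (homRank M)) (Fin (homRank M)) (ZMod ℓ),
    GaloisFactorsThroughFiniteLevel ρ ∧
    (∀ (i : GoodOp M) (g : GQ), Commute (ρ g) ((opMat i).map (Int.cast : ℤ → ZMod ℓ))) ∧
    ∀ (p : ℕ) (hp : p.Prime) (hpM : ¬ p ∣ M), p ≠ ℓ → ∀ A : ValuationSubring Qb,
      A.LiesOverPrime p →
        (∀ σ ∈ A.inertiaSubgroupIn ℚ, ρ σ = 1) ∧
        ∀ σ : GQ, A.IsFrobeniusAt σ p →
          ρ σ * ρ σ - (opMat (.inl ⟨p, hp, hpM⟩)).map (Int.cast : ℤ → ZMod ℓ) * ρ σ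
            + (p : ZMod ℓ) •
              (opMat (.inr (primeUnit M p hp hpM))).map (Int.cast : ℤ → ZMod ℓ) = 0

/-- The passage from the congruent forms and the Galois modules to the residual
representations. -/
def ResidualRepsStep : Prop :=
  ∀ (N : ℕ) [NeZero N] (ε : DirichletCharacter ℂ N) (g : CuspForm (Gamma1 N) 1),
    IsDepleted ε (qCoeff g) → CongruentFormProperty ε g →
    (∀ (ℓ : ℕ) [NeZero (N * ℓ)], ℓ.Prime → 7 ≤ ℓ → GaloisModelProperty (N * ℓ) ℓ) →
    HasResidualReps ε (qCoeff g)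

namespace Curve

/-! ### Reduction of the field of `±Γ₁(M)` -/

variable (M : ℕ) [NeZero M] [GoodLevel M]

/-- The function field over `ℚ̄`. -/
abbrev F1Q : IntermediateField Qb (LaurentSeries Qb) := JacTorsion.FQ (F1 M)

/-- The reductions of the integral functions. -/
def redSet1 (A : ValuationSubring Qb) : Set (LaurentSeries (IsLocalRing.ResidueField A)) :=
  RedTorsion.serRed A '' {y : RedTorsion.serInt A | (y : LaurentSeries Qb) ∈ F1Q M}

/-- The field generated by the reductions. -/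
def redField1 (A : ValuationSubring Qb) : Subfield (LaurentSeries (IsLocalRing.ResidueField A)) :=
  Subfield.closure (redSet1 M A)

/-- `f = c y / d` with integral `y`, `d` having nonzero reductions. -/
def PrimFrac (A : ValuationSubring Qb) (f : LaurentSeries Qb) (y d : RedTorsion.serInt A) : Prop :=
  (y : LaurentSeries Qb) ∈ F1Q M ∧ (d : LaurentSeries Qb) ∈ F1Q M ∧
    RedTorsion.serRed A y ≠ 0 ∧ RedTorsion.serRed A d ≠ 0 ∧
    ∃ c : Qb, c ≠ 0 ∧ f * (d : LaurentSeries Qb) =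
      algebraMap Qb (LaurentSeries Qb) c * (y : LaurentSeries Qb)

/-- Every function is primitive over primitive, and a function with divisor divisible by a prime
`m` whose reduction is an `m`-th power is an `m`-th power. -/
def ReductionProperty : Prop :=
  ∀ (p : ℕ), p.Prime → ¬ p ∣ M → ∀ A : ValuationSubring Qb, A.LiesOverPrime p →
    (∀ f : F1Q M, f ≠ 0 → ∃ y d, PrimFrac M A (f : LaurentSeries Qb) y d) ∧
    ∀ (m : ℕ), m.Prime → m ≠ p → ∀ f : JacTorsion.divGrp Qb (F1Q M) m, ∀ y d,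
      PrimFrac M A (((f : (F1Q M)ˣ) : F1Q M) : LaurentSeries Qb) y d →
      (∃ g ∈ redField1 M A, RedTorsion.serRed A y = RedTorsion.serRed A d * g ^ m) →
      f ∈ JacTorsion.powGrp Qb (F1Q M) m

/-! ### The operators on functions -/

/-- `D` is the family of diamond automorphisms. -/
def IsDiamondFamily (D : (ZMod M)ˣ → (F1Q M ≃ₐ[Qb] F1Q M)) : Prop :=
  (∀ (u : (ZMod M)ˣ) (σ : GQ) (f : F1Q M),
    D u (arithmeticGalois (F1 M) σ • f) = arithmeticGalois (F1 M) σ • D u f) ∧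
  ∀ (m : ℕ) [NeZero m] (u : (ZMod M)ˣ) (f : JacTorsion.divGrp Qb (F1Q M) m),
    ∃ f' : JacTorsion.divGrp Qb (F1Q M) m,
      ((f' : (F1Q M)ˣ) : F1Q M) = D u ((f : (F1Q M)ˣ) : F1Q M) ∧
      ((kummerChar1 M m (QuotientGroup.mk f')).toAdd.1 : Additive (G1 M) →+ ZMod m) =
        diamond M (Subgroup.zpowers (-1)) (ZMod m) u
          (kummerChar1 M m (QuotientGroup.mk f)).toAdd.1

/-- `T` is the Hecke operator at `p` on functions, with `D` the diamond at `p`. -/
def IsHeckeOnFun (p : ℕ) [Fact p.Prime] (D : F1Q M ≃ₐ[Qb] F1Q M) (T : F1Q M →* F1Q M) : Prop :=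
  (∀ (σ : GQ) (f : F1Q M),
    T (arithmeticGalois (F1 M) σ • f) = arithmeticGalois (F1 M) σ • T f) ∧
  (∀ ζ : Qbˣ, IsPrimitiveRoot ζ p → ∀ f : F1Q M,
    haveI : NeZero p := ⟨(Fact.out : p.Prime).ne_zero⟩
    qExpand Qb p ((T f : F1Q M) : LaurentSeries Qb) =
      qExpand Qb p (qExpand Qb p ((D f : F1Q M) : LaurentSeries Qb)) *
        ∏ i : Fin p, ModFun.twist (ζ ^ (i : ℕ)) (f : LaurentSeries Qb)) ∧
  ∀ (m : ℕ) [NeZero m] (f : JacTorsion.divGrp Qb (F1Q M) m),
    ∃ f' : JacTorsion.divGrp Qb (F1Q M) m,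
      ((f' : (F1Q M)ˣ) : F1Q M) = T ((f : (F1Q M)ˣ) : F1Q M) ∧
      ((kummerChar1 M m (QuotientGroup.mk f')).toAdd.1 : Additive (G1 M) →+ ZMod m) =
        hecke M (Subgroup.zpowers (-1)) p (ZMod m)
          (kummerChar1 M m (QuotientGroup.mk f)).toAdd.1

/-- The diamond and Hecke operators on functions exist. -/
def OperatorsProperty : Prop :=
  ∃ D : (ZMod M)ˣ → (F1Q M ≃ₐ[Qb] F1Q M), IsDiamondFamily M D ∧
    ∀ (p : ℕ) (hp : p.Prime) (hpM : ¬ p ∣ M),
      haveI : Fact p.Prime := ⟨hp⟩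
      ∃ T : F1Q M →* F1Q M, IsHeckeOnFun M p (D (primeUnit M p hp hpM)) T

/-- The Galois modules from the reduction and the operators. -/
def GaloisModelStep : Prop :=
  ∀ (M : ℕ) [NeZero M] [GoodLevel M], ReductionProperty M → OperatorsProperty M →
    ∀ ℓ : ℕ, ℓ.Prime → GaloisModelProperty M ℓ

end Curve

end Fermat.Agent.DeligneSerre
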