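import Fermat.Agent.DeligneSerre.Reduction
import Fermat.Agent.DeligneSerre.Reps.Main

/-!
# The Deligne–Serre theorem from the congruent forms and the curves of `±Γ₁(M)`
-/

set_option autoImplicit false

noncomputable section

namespace Fermat.Agent.DeligneSerre

open CongruenceSubgroup ModularFormClass
open Fermat.Agent.Arith
open scoped MatrixGroups

theorem goodLevel_of_prime_dvd {M ℓ : ℕ} [NeZero M] (hℓ : ℓ.Prime) (h7 : 7 ≤ ℓ) (h : ℓ ∣ M) :
    Curve.GoodLevel M := by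
  haveI := Fact.mk hℓ
  obtain ⟨c, hc⟩ := IsCyclic.exists_generator (α := (ZMod ℓ)ˣ)
  obtain ⟨u, rfl⟩ := ZMod.unitsMap_surjective h c
  refine ⟨u, fun h4 => ?_⟩
  have h1 := orderOf_eq_card_of_forall_mem_zpowers hc
  rw [Nat.card_eq_fintype_card, ZMod.card_units] at h1
  have h2 : orderOf (ZMod.unitsMap h u) ∣ 4 :=
    orderOf_dvd_of_pow_eq_one (by rw [← map_pow, h4, map_one])
  have := Nat.le_of_dvd (by norm_num) h2
  omega

/-- The theorem from the four geometric and analytic inputs. -/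
theorem exists_galoisRep_of_inputs
    (hform : ∀ (N : ℕ) [NeZero N] (ε : DirichletCharacter ℂ N) (g : CuspForm (Gamma1 N) 1),
      IsDepleted ε (qCoeff g) → CongruentFormProperty ε g)
    (hstep : Curve.GaloisModelStep)
    (hred : ∀ (M : ℕ) [NeZero M] [Curve.GoodLevel M], Curve.ReductionProperty M)
    (hop : ∀ (M : ℕ) [NeZero M] [Curve.GoodLevel M], Curve.OperatorsProperty M)
    {N : ℕ} [NeZero N] {ε : DirichletCharacter ℂ N} {f : CuspForm (Gamma1 N) 1}
    (hT : HeckeRec ε (qCoeff f)) (hf : qCoeff f 1 = 1) :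
    ∃ ρ : GQ →* GL (Fin 2) ℂ, GaloisFactorsThroughFiniteLevel ρ ∧
      (Deformation.matrixRepresentation ρ).IsIrreducible ∧
      ∀ p : ℕ, p.Prime → ¬ p ∣ N →
        ∀ A : ValuationSubring QBar, A.LiesOverPrime p →
          (∀ σ ∈ A.inertiaSubgroupIn ℚ, ρ σ = 1) ∧
          ∀ σ : GQ, A.IsFrobeniusAt σ p →
            ((ρ σ : GL (Fin 2) ℂ) : Matrix (Fin 2) (Fin 2) ℂ).trace = qCoeff f p ∧
            ((ρ σ : GL (Fin 2) ℂ) : Matrix (Fin 2) (Fin 2) ℂ).det = ε (p : ZMod N) := by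
  haveI : NeZero (N * N) := ⟨Nat.mul_ne_zero (NeZero.ne N) (NeZero.ne N)⟩
  refine exists_galoisRep_of_deplete hT hf (residualRepsStep _ _ _ (isDepleted_deplete hT hf)
    (hform _ _ _ (isDepleted_deplete hT hf)) fun ℓ _ hℓ h7 => ?_)
  haveI := goodLevel_of_prime_dvd hℓ h7 (dvd_mul_left ℓ (N * N))
  exact hstep _ (hred _) (hop _) ℓ hℓ

end Fermat.Agent.DeligneSerre
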